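import Fermat.Agent.S36.Mod3.H370.VT

/-!
# S36 / MOD3 / REG — FROB on the middle component (helper370)

For EVERY `d ∣ M` the two images of `j_d` of level `M` in level `M q q`,

  `φ(j_d) = α (α j_d) = j_d`   and   `γ(j_d) = β (β j_d) = j_{d q²}`,

are congruent modulo the maximal ideal of the middle valuation ring `V₂`:

  `leafFrob370 : Std → Objs → ∀ d ∣ M, β (β j_d) - α (α j_d) ∈ 𝔪_{V₂}`.

These are the hypotheses `c1`, `c2`, `c4` (`d = 1, 2, 4`) of helper994's `Plug4.reg4_congr`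
(`γ4`, `φ4` unfold by `rfl`) and `c1`, `c3`, `c9` of the level-`9` mirror.

Proof: Frobenius congruence `j_e^q ≡ j_{eq}` on `V∞` of level `M q` (`frob_jE370`) at `e = d` and,
after Fricke, at `e = M / d`; pull-back along `α` (`V₂ ∘ α = V₁'`) and along `β`
(`V₂ ∘ β = V₂'`): `α(β j_d) ≡ φ(j_d)^q` and `α(β j_d) = β(α j_d) ≡ γ(j_d)^q`; the residue field has
characteristic `q`.
-/

set_option autoImplicit false
set_option linter.unusedSectionVars false
set_option linter.style.haveILetI false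
set_option synthInstance.maxHeartbeats 400000
set_option maxHeartbeats 1600000

noncomputable section

namespace Fermat.Agent.S36.Mod3.H370

open ModularCurve HahnSeries Polynomial Fermat.Agent.A2.Mod
open Fermat.Agent.S36.H370 Fermat.Agent.S36.Eng

section Generic

variable {F : Type*} [Field F]

theorem add_mem_nonunits370 {V : ValuationSubring F} {x y : F} (hx : x ∈ V.nonunits)
    (hy : y ∈ V.nonunits) : x + y ∈ V.nonunits := by
  rw [ValuationSubring.mem_nonunits_iff] at hx hy ⊢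
  exact lt_of_le_of_lt (V.valuation.map_add x y) (max_lt hx hy)

theorem mul_mem_nonunits370 {V : ValuationSubring F} {x y : F} (hx : x ∈ V.nonunits)
    (hy : y ∈ V) : x * y ∈ V.nonunits := by
  rw [ValuationSubring.mem_nonunits_iff] at hx ⊢
  rw [map_mul]
  exact mul_lt_one_of_lt_of_le hx ((V.valuation_le_one_iff y).2 hy)

theorem mem_nonunits_of_pow370 {V : ValuationSubring F} {x : F} {n : ℕ}
    (h : x ^ n ∈ V.nonunits) : x ∈ V.nonunits := by
  rw [ValuationSubring.mem_nonunits_iff] at h ⊢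
  by_contra hx
  rw [not_lt] at hx
  rw [map_pow] at h
  exact absurd h (not_lt.mpr (one_le_pow₀ hx))

/-- In residue characteristic `q`: `x ^ q ≡ y ^ q ⟹ x ≡ y`. -/
theorem sub_mem_nonunits_of_pow_sub370 (V : ValuationSubring F) {q : ℕ} (hq : q.Prime)
    (hqV : ((q : ℕ) : F) ∈ V.nonunits) {x y : F} (hx : x ∈ V) (hy : y ∈ V)
    (h : x ^ q - y ^ q ∈ V.nonunits) : x - y ∈ V.nonunits := by
  obtain ⟨r, hr⟩ := exists_add_pow_prime_eq hq (⟨x - y, V.sub_mem hx hy⟩ : V) ⟨y, hy⟩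
  have hr' : (x - y + y) ^ q = (x - y) ^ q + y ^ q + (q : F) * (x - y) * y * (r : F) := by
    have := congrArg (fun z : V => (z : F)) hr
    simpa using this
  rw [sub_add_cancel] at hr'
  have e : (x - y) ^ q = (x ^ q - y ^ q) + -((q : F) * ((x - y) * y * (r : F))) := by
    rw [hr']
    ring
  refine mem_nonunits_of_pow370 (n := q) ?_
  rw [e]
  refine add_mem_nonunits370 h (neg_mem_nonunits370 (mul_mem_nonunits370 hqV ?_))
  exact V.mul_mem _ _ (V.mul_mem _ _ (V.sub_mem hx hy) hy) r.2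

end Generic

section Main

variable {P : ValuationSubring Qb} {E : IntermediateField ℚ Qb} {M q : ℕ} [NeZero M] [NeZero q]
  [NeZero (M * q)] {w : RE P E}

/-- **FROB (leaf shape)**: `γ(j_d) ≡ φ(j_d)` on the middle component, for every `d ∣ M`. -/
def LeafFrob370 : Prop :=
  Mod3.Leaf fun _ E M q _ _ _ _ _ _ _ V₂ _ =>
    ∀ (d : ℕ) [NeZero d] (hd : d ∣ M),
      βE E (M * q) q (βE E M q (jE E M d hd)) - αE E (M * q) q (αE E M q (jE E M d hd))
        ∈ V₂.nonunits

/-- **FROB on the middle component**, unconditional. -/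
theorem leafFrob370 : LeafFrob370 := by
  intro P E M q _ _ _ w hStd V₁' V₂' V₁ V₂ V₃ W' W hO d _ hd
  have hS : Setting P E M q w :=
    ⟨hStd.q_prime, hStd.q_not_dvd, NeZero.ne M, hStd.lies_over, hStd.unram.1.dvr, hStd.unif⟩
  have hSQ : SettingQ P E q w := SettingQ.of_setting hS
  haveI := hS.dvr
  have hT := leafTable P E M q w hStd V₁' V₂' V₁ V₂ V₃ W' W hO
  have hB₁' := H553.vinfBasic P E w (M * q) (NeZero.ne _) hS.dvr hS.unif V₁' hO.vinf'
  have hu₁' : A2.H48.IsUnif V₁' (cE P E (M * q) w) := hB₁'.1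
  haveI hdq : NeZero (d * q) := ⟨mul_ne_zero (NeZero.ne d) (NeZero.ne q)⟩
  obtain ⟨e, he⟩ := hd
  have he0 : e ≠ 0 := by
    rintro rfl
    exact (NeZero.ne M) (by rw [he, mul_zero])
  haveI : NeZero e := ⟨he0⟩
  haveI : NeZero (e * q) := ⟨mul_ne_zero he0 (NeZero.ne q)⟩
  have hd : d ∣ M := ⟨e, he⟩
  -- divisibilities at level `M q`
  have hdN : d ∣ M * q := hd.trans (dvd_mul_right M q)
  have hdqN : d * q ∣ M * q := mul_dvd_mul_right hd q
  have heN : e ∣ M * q := (Dvd.intro_left d he.symm).trans (dvd_mul_right M q)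
  have heqN : e * q ∣ M * q := mul_dvd_mul_right (Dvd.intro_left d he.symm) q
  -- membership along `α`, `β`
  have hαn₂ : ∀ f, αE E (M * q) q f ∈ V₂.nonunits ↔ f ∈ V₁'.nonunits := fun f => by
    rw [← hT.comap_α₂, mem_nonunits_comap_hom]
    rfl
  have hβn₂ : ∀ f, βE E (M * q) q f ∈ V₂.nonunits ↔ f ∈ V₂'.nonunits := fun f => by
    rw [← hT.comap_β₂, mem_nonunits_comap_hom]
    rfl
  have hαV₂ : ∀ k, αE E (M * q) q k ∈ V₂ ↔ k ∈ V₁' := fun k => by
    rw [← hT.comap_α₂, ValuationSubring.mem_comap]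
    rfl
  have hβV₂ : ∀ k, βE E (M * q) q k ∈ V₂ ↔ k ∈ V₂' := fun k => by
    rw [← hT.comap_β₂, ValuationSubring.mem_comap]
    rfl
  -- Frobenius at `d` on `V₁'`
  have hF : jE E (M * q) d hdN ^ q - jE E (M * q) (d * q) hdqN ∈ V₁'.nonunits :=
    (H13.inW_iff_mem_nonunits hu₁' _).mp (frob_jE370 hSQ hO.vinf' d hdN hdqN)
  -- Frobenius at `e = M / d` on `V₁'`, i.e. at `d` on `V₂'`
  have hFe : jE E (M * q) e heN ^ q - jE E (M * q) (e * q) heqN ∈ V₁'.nonunits :=
    (H13.inW_iff_mem_nonunits hu₁' _).mp (frob_jE370 hSQ hO.vinf' e heN heqN)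
  have hW1 : W' (jE E (M * q) (d * q) hdqN) = jE E (M * q) e heN :=
    hO.fricke'.1 (d * q) e hdqN heN (by rw [he]; ring)
  have hW2 : W' (jE E (M * q) d hdN) = jE E (M * q) (e * q) heqN :=
    hO.fricke'.1 d (e * q) hdN heqN (by rw [he]; ring)
  have hF₂ : jE E (M * q) (d * q) hdqN ^ q - jE E (M * q) d hdN ∈ V₂'.nonunits := by
    rw [hO.vzero', H13.mem_nonunits_comap]
    show W' (jE E (M * q) (d * q) hdqN ^ q - jE E (M * q) d hdN) ∈ V₁'.nonunits
    rw [map_sub, map_pow, hW1, hW2]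
    exact hFe
  -- the three elements of level `M q q`
  have hα1 : αE E M q (jE E M d hd) = jE E (M * q) d hdN := H553.αE_jE E M q d hd
  have hβ1 : βE E M q (jE E M d hd) = jE E (M * q) (d * q) hdqN := H553.βE_jE E M q d hd
  have hβα : βE E (M * q) q (jE E (M * q) d hdN) =
      αE E (M * q) q (jE E (M * q) (d * q) hdqN) := by
    rw [H553.βE_jE E (M * q) q d hdN, H553.αE_jE E (M * q) q (d * q) hdqN]
  rw [hα1, hβ1]
  set x : FE E (M * q * q) := βE E (M * q) q (jE E (M * q) (d * q) hdqN) with hx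
  set y : FE E (M * q * q) := αE E (M * q) q (jE E (M * q) d hdN) with hy
  set A : FE E (M * q * q) := αE E (M * q) q (jE E (M * q) (d * q) hdqN) with hA
  have h1 : y ^ q - A ∈ V₂.nonunits := by
    have h := (hαn₂ _).mpr hF
    rwa [map_sub, map_pow] at h
  have h2 : x ^ q - A ∈ V₂.nonunits := by
    have h := (hβn₂ _).mpr hF₂
    rwa [map_sub, map_pow, hβα] at h
  have h3 : x ^ q - y ^ q ∈ V₂.nonunits := by
    have e1 : x ^ q - y ^ q = (x ^ q - A) + -(y ^ q - A) := by ring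
    rw [e1]
    exact add_mem_nonunits370 h2 (neg_mem_nonunits370 h1)
  -- memberships
  have hyV : y ∈ V₂ := (hαV₂ _).mpr (hB₁'.2.2 d hdN).1
  have hxV : x ∈ V₂ := by
    refine (hβV₂ _).mpr ?_
    rw [hO.vzero', ValuationSubring.mem_comap]
    show W' (jE E (M * q) (d * q) hdqN) ∈ V₁'
    rw [hW1]
    exact (hB₁'.2.2 e heN).1
  -- `q ∈ 𝔪_{V₂}`
  have hqV : ((q : ℕ) : FE E (M * q * q)) ∈ V₂.nonunits := by
    obtain ⟨c, hc⟩ := exists_q_eqQ hSQ
    have e1 : ((q : ℕ) : FE E (M * q * q)) =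
        αE E (M * q) q (cE P E (M * q) w * cE P E (M * q) c) := by
      rw [cE, cE, ← map_mul, ← hc, map_natCast, map_natCast]
    rw [e1, hαn₂]
    exact mul_mem_nonunits370 (unifAt_of_isUnif370 hu₁').2.1 (H972.cE_mem_vinf hO.vinf' c)
  exact sub_mem_nonunits_of_pow_sub370 V₂ hStd.q_prime hqV hxV hyV h3

end Main

end Fermat.Agent.S36.Mod3.H370

end
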