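import Fermat.Agent.S36.Mod3.Spec
import Fermat.Agent.S36.H370.Mod3Mid

/-!
# S36 / MOD3 — leaf TABLE (helper370): `Mod3.LeafTable`, verbatim, unconditional

The six lying-over relations of the three components `V₁ = V∞(M q q)`, `V₂` (middle),
`V₃ = V₁.comap W` over `V₁' = V∞(M q)`, `V₂' = V₁'.comap W'` along `α` and `β`:

    via α :  V₁ | V₁'   V₂ | V₁'   V₃ | V₂'
    via β :  V₁ | V₁'   V₂ | V₂'   V₃ | V₂'

* `comap_α₁`, `comap_β₁` : `H370.comap_alpha_vinfQ`, `H370.comap_beta_vinfQ` (any level);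
* `comap_α₂` : the field `Objs.mid`;
* `comap_α₃`, `comap_β₃` : Fricke transport (`H370.comap_alpha_vzeroQ`, `H370.comap_beta_vzeroQ`);
* `comap_β₂` : `H370.comap_beta_mid` (Kronecker + two-extension theorem of level `M q` +
  uniqueness of the extension of `V₁'` along `β`).
-/

set_option autoImplicit false
set_option linter.unusedSectionVars false
set_option linter.style.haveILetI false
set_option synthInstance.maxHeartbeats 400000
set_option maxHeartbeats 1600000

noncomputable section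

namespace Fermat.Agent.S36.Mod3.H370

open Fermat.Agent.S36.H370

/-- **Leaf TABLE**, exact frozen type. -/
theorem leafTable : Mod3.LeafTable := by
  intro P E M q _ _ _ w hStd V₁' V₂' V₁ V₂ V₃ W' W hO
  have hS : A2.Mod.Setting P E M q w :=
    ⟨hStd.q_prime, hStd.q_not_dvd, NeZero.ne M, hStd.lies_over, hStd.unram.1.dvr, hStd.unif⟩
  have hSQ : SettingQ P E q w := SettingQ.of_setting hS
  refine ⟨?_, hO.mid, ?_, ?_, ?_, ?_⟩
  · exact comap_alpha_vinfQ hSQ hO.vinf' hO.vinf
  · rw [hO.vzero, hO.vzero']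
    exact comap_alpha_vzeroQ hSQ hO.vinf' hO.vinf hO.fricke' hO.fricke
  · exact comap_beta_vinfQ hSQ hO.vinf' hO.vinf
  · rw [hO.vzero']
    exact comap_beta_mid hS hO.vinf' hO.fricke' hO.vinf hO.mid hO.mid_ne
  · rw [hO.vzero, hO.vzero']
    exact comap_beta_vzeroQ hSQ hO.vinf' hO.vinf hO.fricke' hO.fricke

end Fermat.Agent.S36.Mod3.H370

end
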