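import Fermat.Agent.S36.Mod3.SpecVT
import Fermat.Agent.S36.Mod3.H370.Table
import Fermat.Agent.S36.H83.AlphaVV
import Fermat.Agent.S36.H972.Mod3Alpha

/-!
# S36 / MOD3 — the valuation-level hub `Mod3.LeafVT` (helper370): verbatim, unconditional

Assembly of the fifteen fields of `Mod3.PartVT` for the concrete objects:

* `res_α₁`, `res_α₂`, `only_α₁`, `pi_unif`, `pi_pow` : helper972 `H972.mod3_alpha_main` (main) and
  the identification `V₂ = V_mid` (`Objs.mid`, `Objs.mid_ne`);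
* `res_β₃` : `H370.resZeroQ`;  `insep_α₃`, `insep_β₁`, `only_α₃`, `only_β₁` : helper83 (main);
* `V₂.comap W = V₂` (`mid_fricke370`) from `H370.comap_beta_mid` + `only_α₁`; then `res_β₂`,
  `only_β₂` by Fricke transport of `res_α₂`, `only_α₁`;
* `kron₁`, `kron₂`, `kron₃` : the Frobenius congruence `j_d^q ≡ j_{dq}` on `V∞` (`frob_jE370`)
  transported by `α`, `β`, `W`.
-/

set_option autoImplicit false
set_option linter.unusedSectionVars false
set_option linter.style.haveILetI false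
set_option synthInstance.maxHeartbeats 400000
set_option maxHeartbeats 1600000

noncomputable section

namespace Fermat.Agent.S36.Mod3.H370

open ModularCurve HahnSeries Polynomial Fermat.Agent.A2.Mod
open Fermat.Agent.S36.H370 Fermat.Agent.S36.Eng

section Frob

variable {P : ValuationSubring Qb} {E : IntermediateField ℚ Qb} {q : ℕ} [NeZero q]
  {w : RE P E}

/-- **Frobenius congruence on `V∞`** (any level): `j_d ^ q ≡ j_{d q}` modulo `w V∞`. -/
theorem frob_jE370 (hS : SettingQ P E q w) {N : ℕ} {V : ValuationSubring (FE E N)}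
    (hV : IsVinf P E N V) (d : ℕ) [NeZero d] (hd : d ∣ N) (hdq : d * q ∣ N) :
    InW P E N V w (jE E N d hd ^ q - jE E N (d * q) hdq) := by
  haveI := hS.dvr
  haveI : Fact q.Prime := ⟨hS.q_prime⟩
  haveI : CharP (IsLocalRing.ResidueField (RE P E)) q :=
    S18.H516.charP_residue (RE P E) (H96.liesOver_RE P E hS.lies_over)
  refine H83.h83_inW_of_red_eq_zero hS.dvr hS.unif hV
    (S := A2.H708.castA (RE P E) (A2.H708.jInt d ^ q - A2.H708.jInt (d * q))) ?_ ?_
  · rw [AddSubgroupClass.coe_sub, IntermediateField.coe_pow,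
      H708.coe_jE_eq (P := P) N d hd, H708.coe_jE_eq (P := P) N (d * q) hdq, map_sub, map_sub,
      map_pow, map_pow]
  · rw [H753.red_castA, map_sub, map_pow]
    have h1 : A2.H708.jInt d = qExpand ℤ d (jqModC ℤ) := rfl
    have h2 : A2.H708.jInt (d * q) = qExpand ℤ d (qExpand ℤ q (jqModC ℤ)) := by
      rw [qExpand_qExpand]
      rfl
    rw [h1, h2]
    have e1 : ∀ x : LaurentSeries ℤ,
        S28.H325.castL (IsLocalRing.ResidueField (RE P E)) (qExpand ℤ d x) =
          qExpand _ d (S28.H325.castL (IsLocalRing.ResidueField (RE P E)) x) :=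
      fun x => coeffMap_qExpand _ d x
    rw [e1, e1, H753.castL_qExpand_jqModC q hS.q_prime, S28.H325.castL_jqModC, map_pow, sub_self]

end Frob

section Main

variable {P : ValuationSubring Qb} {E : IntermediateField ℚ Qb} {M q : ℕ} [NeZero M] [NeZero q]
  [NeZero (M * q)] {w : RE P E}

theorem jE_congr370 {N d d' : ℕ} [NeZero d] [NeZero d'] (h : d = d') (hd : d ∣ N)
    (hd' : d' ∣ N) : jE E N d hd = jE E N d' hd' := by
  subst h
  rfl

/-- `Eng.Unramified` gives helper972's `Unram`. -/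
theorem unram_of_std370 (hS : SettingQ P E q w) (hun : Eng.Unramified P E q) :
    H972.Unram P E q w := by
  haveI := hS.dvr
  obtain ⟨c, hc⟩ := exists_q_eqQ hS
  have hw0 : (w : E) ≠ 0 := w_ne_zeroQ hS
  have hq0 : ((q : ℕ) : E) ≠ 0 := Nat.cast_ne_zero.mpr (NeZero.ne q)
  have hwn : (w : E) ∈ (RE P E).nonunits := by
    rw [ValuationSubring.coe_mem_nonunits_iff, IsLocalRing.mem_maximalIdeal, mem_nonunits_iff]
    exact hS.unif.not_isUnit
  have hwP : ((w : E) : Qb) ∈ P.nonunits := (mem_nonunits_comap_hom P (algebraMap E Qb) _).mp hwn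
  have h1 := hun.2 (w : E) hwP
  have hmem : (w : E) * ((q : ℕ) : E)⁻¹ ∈ RE P E := by
    show algebraMap E Qb ((w : E) * ((q : ℕ) : E)⁻¹) ∈ P
    rw [map_mul, map_inv₀, map_natCast]
    exact h1
  have hc0 : (c : E) ≠ 0 := by
    intro h0
    rw [h0, mul_zero] at hc
    exact hq0 hc
  have hci : (c : E) * ((w : E) * ((q : ℕ) : E)⁻¹) = 1 := by
    rw [hc]
    field_simp
  refine ⟨⟨c, ⟨_, hmem⟩, Subtype.ext hci, Subtype.ext ?_⟩, hc⟩
  show (w : E) * ((q : ℕ) : E)⁻¹ * (c : E) = 1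
  rw [mul_comm]
  exact hci

theorem nonunits_of_isUnif370 {F : Type*} [Field F] {V : ValuationSubring F} {t x : F}
    (h : A2.H48.IsUnif V t) (hx : x * t⁻¹ ∈ V) : x ∈ V.nonunits := by
  rw [ValuationSubring.mem_nonunits_iff]
  exact h.mul_inv_mem_iff.mp hx

theorem unifAt_of_isUnif370 {F : Type*} [Field F] {V : ValuationSubring F} {t : F}
    (h : A2.H48.IsUnif V t) : UnifAt V t := by
  refine ⟨h.ne_zero, ?_, fun f hf => ?_⟩
  · rw [ValuationSubring.mem_nonunits_iff_or]
    exact Or.inr h.inv_not_mem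
  · rw [ValuationSubring.mem_nonunits_iff] at hf
    exact h.mul_inv_mem_iff.mpr hf

theorem neg_mem_nonunits370 {F : Type*} [Field F] {V : ValuationSubring F} {x : F}
    (h : x ∈ V.nonunits) : -x ∈ V.nonunits := by
  rw [ValuationSubring.mem_nonunits_iff] at h ⊢
  rwa [Valuation.map_neg]

/-- **VT (leaf)**, exact frozen type. -/
theorem leafVT : Mod3.LeafVT := by
  intro P E M q _ _ _ w hStd V₁' V₂' V₁ V₂ V₃ W' W hO
  have hS : Setting P E M q w :=
    ⟨hStd.q_prime, hStd.q_not_dvd, NeZero.ne M, hStd.lies_over, hStd.unram.1.dvr, hStd.unif⟩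
  have hSQ : SettingQ P E q w := SettingQ.of_setting hS
  haveI := hS.dvr
  have hT := leafTable P E M q w hStd V₁' V₂' V₁ V₂ V₃ W' W hO
  obtain ⟨Vmid, -, -, hunif, ⟨u, hu, hui, hpow⟩, hresmid, hresV, honly⟩ :=
    H972.mod3_alpha_main hS (unram_of_std370 hSQ hStd.unram) hO.vinf' hO.vinf
  have hαV₂ : ∀ k, αE E (M * q) q k ∈ V₂ ↔ k ∈ V₁' := fun k => by
    rw [← hO.mid, ValuationSubring.mem_comap]
    rfl
  have hV₂ : V₂ = Vmid := (honly V₂ hαV₂).resolve_left hO.mid_ne
  subst hV₂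
  -- uniformisers
  have hu₁ : A2.H48.IsUnif V₁ (cE P E (M * q * q) w) :=
    (H553.vinfBasic P E w (M * q * q) (NeZero.ne _) hS.dvr hS.unif V₁ hO.vinf).1
  have hu₁' : A2.H48.IsUnif V₁' (cE P E (M * q) w) :=
    (H553.vinfBasic P E w (M * q) (NeZero.ne _) hS.dvr hS.unif V₁' hO.vinf').1
  have hu₃ : A2.H48.IsUnif (V₁.comap (W : FE E (M * q * q) →+* FE E (M * q * q)))
      (cE P E (M * q * q) w) := H13.isUnif_comap hu₁ W
  have hu₂' : A2.H48.IsUnif (V₁'.comap (W' : FE E (M * q) →+* FE E (M * q)))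
      (cE P E (M * q) w) := H13.isUnif_comap hu₁' W'
  have hqM : q ∣ M * q := dvd_mul_left q M
  -- membership along `α`, `β`
  have hαn₂ : ∀ f, αE E (M * q) q f ∈ V₂.nonunits ↔ f ∈ V₁'.nonunits := fun f => by
    rw [← hT.comap_α₂, mem_nonunits_comap_hom]
    rfl
  have hβn₁ : ∀ f, βE E (M * q) q f ∈ V₁.nonunits ↔ f ∈ V₁'.nonunits := fun f => by
    rw [← hT.comap_β₁, mem_nonunits_comap_hom]
    rfl
  have hαn₃ : ∀ f, αE E (M * q) q f ∈ V₃.nonunits ↔ f ∈ V₂'.nonunits := fun f => by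
    rw [← hT.comap_α₃, mem_nonunits_comap_hom]
    rfl
  have hβn₃ : ∀ f, βE E (M * q) q f ∈ V₃.nonunits ↔ f ∈ V₂'.nonunits := fun f => by
    rw [← hT.comap_β₃, mem_nonunits_comap_hom]
    rfl
  have hβ₂ : ∀ f, βE E (M * q) q f ∈ V₂ ↔ f ∈ V₂' := fun f => by
    rw [← hT.comap_β₂, ValuationSubring.mem_comap]
    rfl
  -- Fricke
  have hWW : ∀ f, W (W f) = f := hO.fricke.2
  have hWW' : ∀ f, W' (W' f) = f := hO.fricke'.2
  have hcompat := H553.frickeCompat E (M * q) q W' W hO.fricke' hO.fricke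
  have hV₂'mem : ∀ f, f ∈ V₂' ↔ W' f ∈ V₁' := fun f => by
    rw [hO.vzero', ValuationSubring.mem_comap]
    rfl
  have hV₃mem : ∀ f, f ∈ V₃ ↔ W f ∈ V₁ := fun f => by
    rw [hO.vzero, ValuationSubring.mem_comap]
    rfl
  -- a valuation ring over `V₂'` along `β` pulls back along `W` to one over `V₁'` along `α`
  have hswap : ∀ V : ValuationSubring (FE E (M * q * q)),
      (∀ f, βE E (M * q) q f ∈ V ↔ f ∈ V₂') →
      ∀ k, αE E (M * q) q k ∈ V.comap (W : FE E (M * q * q) →+* FE E (M * q * q)) ↔ k ∈ V₁' := by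
    intro V hV k
    rw [ValuationSubring.mem_comap]
    show W (αE E (M * q) q k) ∈ V ↔ k ∈ V₁'
    rw [(hcompat k).1, hV, hV₂'mem, hWW']
  have hcomapW : ∀ V V' : ValuationSubring (FE E (M * q * q)),
      V.comap (W : FE E (M * q * q) →+* FE E (M * q * q)) = V' →
      V = V'.comap (W : FE E (M * q * q) →+* FE E (M * q * q)) := by
    intro V V' h
    ext f
    rw [ValuationSubring.mem_comap, ← h, ValuationSubring.mem_comap]
    show f ∈ V ↔ W (W f) ∈ V
    rw [hWW]
  have hne' : V₁' ≠ V₂' := by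
    intro h
    apply H553.vzeroNe P E M q w hS V₁' W' hO.vinf' hO.fricke'
    rw [← hO.vzero', ← h]
  -- `V₂` is Fricke-stable
  have hmidW : V₂.comap (W : FE E (M * q * q) →+* FE E (M * q * q)) = V₂ := by
    rcases honly _ (hswap V₂ hβ₂) with h | h
    · exfalso
      have h3 : V₂ = V₃ := by rw [hO.vzero]; exact hcomapW V₂ V₁ h
      apply hne'
      rw [← hT.comap_α₂, h3, hT.comap_α₃]
    · exact h
  have hW₂ : ∀ f, W f ∈ V₂ ↔ f ∈ V₂ := fun f => by
    conv_rhs => rw [← hmidW, ValuationSubring.mem_comap]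
    rfl
  have hW₂n : ∀ f, W f ∈ V₂.nonunits ↔ f ∈ V₂.nonunits := fun f => by
    conv_rhs => rw [← hmidW, H13.mem_nonunits_comap]
    rfl
  -- residue degree one on the middle component, along `α`
  have hres₂ : ∀ f ∈ V₂, ∃ g ∈ V₁', f - αE E (M * q) q g ∈ V₂.nonunits := by
    intro f hf
    obtain ⟨g, hg, h⟩ := hresmid f hf
    exact ⟨g, hg, nonunits_of_isUnif370 hunif h⟩
  -- Frobenius congruences
  have hF' : jE E (M * q) 1 (one_dvd _) ^ q - jE E (M * q) q hqM ∈ V₁'.nonunits := by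
    have h := frob_jE370 hSQ hO.vinf' 1 (one_dvd _) (by rw [one_mul]; exact hqM)
    rw [jE_congr370 (one_mul q) _ hqM] at h
    exact (H13.inW_iff_mem_nonunits hu₁' _).mp h
  have hF₀' : W' (jE E (M * q) q hqM) ^ q - W' (jE E (M * q) 1 (one_dvd _)) ∈ V₁'.nonunits := by
    have h := frob_jE370 hSQ hO.vinf' M (dvd_mul_right M q) dvd_rfl
    rw [hO.fricke'.1 q M hqM (dvd_mul_right M q) (mul_comm q M),
      hO.fricke'.1 1 (M * q) (one_dvd _) dvd_rfl (one_mul _)]
    exact (H13.inW_iff_mem_nonunits hu₁' _).mp h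
  have hF₂' : jE E (M * q) q hqM ^ q - jE E (M * q) 1 (one_dvd _) ∈ V₂'.nonunits := by
    rw [hO.vzero', H13.mem_nonunits_comap]
    show W' (jE E (M * q) q hqM ^ q - jE E (M * q) 1 (one_dvd _)) ∈ V₁'.nonunits
    rw [map_sub, map_pow]
    exact hF₀'
  have hαj : αE E (M * q) q (jE E (M * q) 1 (one_dvd _)) = j1 E M q :=
    H553.αE_jE E (M * q) q 1 (one_dvd _)
  have hαjq : αE E (M * q) q (jE E (M * q) q hqM) = jq E M q := alpha_jq_eq370
  have hβj : βE E (M * q) q (jE E (M * q) 1 (one_dvd _)) = jq E M q := by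
    rw [beta_j_eq_alpha_jq370]
    exact alpha_jq_eq370
  have hβjq : βE E (M * q) q (jE E (M * q) q hqM) = jqq E M q := beta_jq_eq370
  refine
    { res_α₁ := ?_
      res_α₂ := hres₂
      res_β₃ := ?_
      res_β₂ := ?_
      insep_α₃ := ?_
      insep_β₁ := ?_
      only_α₁ := ?_
      only_α₃ := ?_
      only_β₂ := ?_
      only_β₁ := ?_
      pi_unif := unifAt_of_isUnif370 hunif
      pi_pow := ?_
      kron₁ := ?_
      kron₂ := ?_
      kron₃ := ?_ }
  · -- res_α₁
    intro f hf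
    obtain ⟨g, hg, h⟩ := hresV f hf
    exact ⟨g, hg, nonunits_of_isUnif370 hu₁ h⟩
  · -- res_β₃
    intro f hf
    rw [hO.vzero] at hf ⊢
    obtain ⟨g, hg, h⟩ := resZeroQ hSQ hO.vinf' hO.vinf hO.fricke' hO.fricke hf
    refine ⟨g, ?_, nonunits_of_isUnif370 hu₃ h⟩
    rw [hO.vzero']
    exact hg
  · -- res_β₂
    intro f hf
    obtain ⟨g, hg, h⟩ := hres₂ (W f) ((hW₂ f).mpr hf)
    refine ⟨W' g, ?_, ?_⟩
    · rw [hV₂'mem, hWW']
      exact hg
    · rw [← hW₂n, map_sub, (hcompat (W' g)).2, hWW']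
      exact h
  · -- insep_α₃
    intro f hf
    rw [hO.vzero] at hf ⊢
    obtain ⟨g, hg, h⟩ := H83.h83_alpha_insep (M := M * q) W' W hS.dvr hS.unif hS.q_prime hqM
      hS.lies_over hO.fricke' hO.fricke hO.vinf' hO.vinf hf
    refine ⟨g, ?_, nonunits_of_isUnif370 hu₃ h⟩
    rw [hO.vzero']
    exact hg
  · -- insep_β₁
    intro f hf
    obtain ⟨g, hg, h⟩ := H83.h83_beta_insep (M := M * q) hS.dvr hS.unif hS.q_prime hqM
      hS.lies_over hO.vinf' hO.vinf hf
    exact ⟨g, hg, nonunits_of_isUnif370 hu₁ h⟩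
  · -- only_α₁
    intro V hV
    refine honly V (fun k => ?_)
    rw [← hV, ValuationSubring.mem_comap]
    rfl
  · -- only_α₃
    intro V hV
    rw [hO.vzero]
    refine H83.h83_alpha_unique (M := M * q) W' W hS.dvr hS.unif hS.q_prime hqM
      hO.fricke' hO.fricke hO.vinf' hO.vinf V (fun f => ?_)
    show αE E (M * q) q f ∈ V ↔ f ∈ V₁'.comap (W' : FE E (M * q) →+* FE E (M * q))
    rw [← hO.vzero', ← hV, ValuationSubring.mem_comap]
    rfl
  · -- only_β₂
    intro V hV
    have hV' : ∀ f, βE E (M * q) q f ∈ V ↔ f ∈ V₂' := fun f => by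
      rw [← hV, ValuationSubring.mem_comap]
      rfl
    rcases honly _ (hswap V hV') with h | h
    · left
      rw [hO.vzero]
      exact hcomapW V V₁ h
    · right
      rw [hcomapW V V₂ h, hmidW]
  · -- only_β₁
    intro V hV
    refine H83.h83_beta_unique (M := M * q) hS.dvr hS.unif hS.q_prime hqM hO.vinf' hO.vinf V
      (fun f => ?_)
    rw [← hV, ValuationSubring.mem_comap]
    rfl
  · -- pi_pow
    have hπ0 : (H972.jqq E M q - H972.jtop E M q) ^ (q - 1) ≠ 0 := pow_ne_zero _ hunif.ne_zero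
    have hu0 : u ≠ 0 := by
      intro h0
      rw [h0, mul_zero] at hpow
      exact hπ0 hpow
    have hc0 : cE P E (M * q * q) w ≠ 0 := cE_ne_zeroQ hSQ _
    have e : algebraMap (RE P E) (FE E (M * q * q)) w *
        ((jqq E M q - j1 E M q) ^ (q - 1))⁻¹ = u⁻¹ := by
      show cE P E (M * q * q) w * ((H972.jqq E M q - H972.jtop E M q) ^ (q - 1))⁻¹ = u⁻¹
      rw [hpow]
      field_simp
    show UnitAt V₂ (algebraMap (RE P E) (FE E (M * q * q)) w *
      ((jqq E M q - j1 E M q) ^ (q - 1))⁻¹)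
    rw [e]
    exact ⟨inv_ne_zero hu0, hui, by rw [inv_inv]; exact hu⟩
  · -- kron₁
    constructor
    · have h1 := frob_jE370 hSQ hO.vinf 1 (one_dvd _)
        (by rw [one_mul]; exact Dvd.intro_left (M * q) rfl)
      rw [jE_congr370 (one_mul q) _ (Dvd.intro_left (M * q) rfl)] at h1
      have h2 := neg_mem_nonunits370 ((H13.inW_iff_mem_nonunits hu₁ _).mp h1)
      rw [neg_sub] at h2
      exact h2
    · have h := neg_mem_nonunits370 ((hβn₁ _).mpr hF')
      rw [map_sub, map_pow, hβj, hβjq, neg_sub] at h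
      exact h
  · -- kron₂
    constructor
    · have h := neg_mem_nonunits370 ((hαn₂ _).mpr hF')
      rw [map_sub, map_pow, hαj, hαjq, neg_sub] at h
      exact h
    · exact (unifAt_of_isUnif370 hunif).2.1
  · -- kron₃
    constructor
    · have h := neg_mem_nonunits370 ((hαn₃ _).mpr hF₂')
      rw [map_sub, map_pow, hαj, hαjq, neg_sub] at h
      exact h
    · have h := neg_mem_nonunits370 ((hβn₃ _).mpr hF₂')
      rw [map_sub, map_pow, hβj, hβjq, neg_sub] at h
      exact h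

end Main

end Fermat.Agent.S36.Mod3.H370

end
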