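import Fermat.Agent.S36.Mod3.H370.VT

/-!
# S36 / MOD3 — leaves VAL and OBJ (helper370): `Mod3.LeafVal`, `Mod3.LeafObj`, verbatim,
unconditional

* `leafObj` : the objects exist (`V∞`, Fricke at both levels: L1, L4 of A2/Mod; the middle
  valuation ring: helper972 `H972.mod3_alpha_main`);
* `leafVal` : the three valuation rings are discrete valuation rings, pairwise distinct,
  `w` is a uniformiser of `V₁`, `V₃`, `w = unit · π ^ (q - 1)` at `V₂` (`π = j_{q²} - j`),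
  `x = j j_q j_{q²}` is a unit of the three.
-/

set_option autoImplicit false
set_option linter.unusedSectionVars false
set_option linter.style.haveILetI false
set_option synthInstance.maxHeartbeats 400000
set_option maxHeartbeats 1600000

noncomputable section

namespace Fermat.Agent.S36.Mod3.H370

open ModularCurve HahnSeries Polynomial Fermat.Agent.A2.Mod
open Fermat.Agent.S36.H370 Fermat.Agent.S36.Eng

section Generic

variable {F : Type*} [Field F]

theorem isUnif_of_unifAt370 {V : ValuationSubring F} {t : F} (h : UnifAt V t) :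
    A2.H48.IsUnif V t := by
  obtain ⟨h0, hn, hg⟩ := h
  refine ⟨nonunits_mem370 hn, ?_, fun f hf hfi => ?_⟩
  · rcases (ValuationSubring.mem_nonunits_iff_or V).mp hn with h | h
    · exact absurd h h0
    · exact h
  · exact hg f ((ValuationSubring.mem_nonunits_iff_or V).mpr (Or.inr hfi))

theorem unitAt_mul370 {V : ValuationSubring F} {a b : F} (ha : UnitAt V a) (hb : UnitAt V b) :
    UnitAt V (a * b) :=
  ⟨mul_ne_zero ha.1 hb.1, V.mul_mem _ _ ha.2.1 hb.2.1, by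
    rw [mul_inv]
    exact V.mul_mem _ _ ha.2.2 hb.2.2⟩

theorem unitAt_of_map370 {F' : Type*} [Field F'] (φ : F' →+* F) {V : ValuationSubring F}
    {V' : ValuationSubring F'} (h : ∀ f, φ f ∈ V ↔ f ∈ V') {a : F'} (ha0 : a ≠ 0)
    (ha : a ∈ V') (hai : a⁻¹ ∈ V') : UnitAt V (φ a) :=
  ⟨(map_ne_zero φ).mpr ha0, (h a).mpr ha, by
    rw [← map_inv₀]
    exact (h _).mpr hai⟩

end Generic

section Main

variable {P : ValuationSubring Qb} {E : IntermediateField ℚ Qb} {M q : ℕ} [NeZero M] [NeZero q]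
  [NeZero (M * q)] {w : RE P E}

/-- **OBJ (leaf)**, exact frozen type. -/
theorem leafObj : Mod3.LeafObj := by
  intro P E M q _ _ _ w hStd
  have hS : Setting P E M q w :=
    ⟨hStd.q_prime, hStd.q_not_dvd, NeZero.ne M, hStd.lies_over, hStd.unram.1.dvr, hStd.unif⟩
  have hSQ : SettingQ P E q w := SettingQ.of_setting hS
  obtain ⟨V₁', hV₁'⟩ := H553.vinfExists P E (M * q) (NeZero.ne _) hS.dvr
  obtain ⟨V₁, hV₁⟩ := H553.vinfExists P E (M * q * q) (NeZero.ne _) hS.dvr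
  obtain ⟨W', hW'⟩ := H751.frickeExists E (M * q) (NeZero.ne _)
  obtain ⟨W, hW⟩ := H751.frickeExists E (M * q * q) (NeZero.ne _)
  obtain ⟨Vmid, hne, hα, -⟩ :=
    H972.mod3_alpha_main hS (unram_of_std370 hSQ hStd.unram) hV₁' hV₁
  refine ⟨V₁', V₁'.comap (W' : FE E (M * q) →+* FE E (M * q)), V₁, Vmid,
    V₁.comap (W : FE E (M * q * q) →+* FE E (M * q * q)), W', W,
    ⟨hV₁', hW', rfl, hV₁, hW, rfl, ?_, hne⟩⟩
  ext k
  rw [ValuationSubring.mem_comap]
  exact hα k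

/-- **VAL (leaf)**, exact frozen type. -/
theorem leafVal : Mod3.LeafVal := by
  intro P E M q _ _ _ w hStd V₁' V₂' V₁ V₂ V₃ W' W hO
  have hS : Setting P E M q w :=
    ⟨hStd.q_prime, hStd.q_not_dvd, NeZero.ne M, hStd.lies_over, hStd.unram.1.dvr, hStd.unif⟩
  have hSQ : SettingQ P E q w := SettingQ.of_setting hS
  haveI := hS.dvr
  have hT := leafTable P E M q w hStd V₁' V₂' V₁ V₂ V₃ W' W hO
  have hVT := leafVT P E M q w hStd V₁' V₂' V₁ V₂ V₃ W' W hO
  have hqM : q ∣ M * q := dvd_mul_left q M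
  have hB₁ := H553.vinfBasic P E w (M * q * q) (NeZero.ne _) hS.dvr hS.unif V₁ hO.vinf
  have hB₁' := H553.vinfBasic P E w (M * q) (NeZero.ne _) hS.dvr hS.unif V₁' hO.vinf'
  have hu₁ : A2.H48.IsUnif V₁ (cE P E (M * q * q) w) := hB₁.1
  have hu₁' : A2.H48.IsUnif V₁' (cE P E (M * q) w) := hB₁'.1
  have hu₃ : A2.H48.IsUnif V₃ (cE P E (M * q * q) w) := by
    rw [hO.vzero]
    exact H13.isUnif_comap hu₁ W
  have hu₂ : A2.H48.IsUnif V₂ (jqq E M q - j1 E M q) := isUnif_of_unifAt370 hVT.pi_unif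
  have hαV₂ : ∀ k, αE E (M * q) q k ∈ V₂ ↔ k ∈ V₁' := fun k => by
    rw [← hT.comap_α₂, ValuationSubring.mem_comap]
    rfl
  have hβV₂ : ∀ k, βE E (M * q) q k ∈ V₂ ↔ k ∈ V₂' := fun k => by
    rw [← hT.comap_β₂, ValuationSubring.mem_comap]
    rfl
  have hV₃mem : ∀ f, f ∈ V₃ ↔ W f ∈ V₁ := fun f => by
    rw [hO.vzero, ValuationSubring.mem_comap]
    rfl
  have hV₂'mem : ∀ f, f ∈ V₂' ↔ W' f ∈ V₁' := fun f => by
    rw [hO.vzero', ValuationSubring.mem_comap]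
    rfl
  have hne' : V₁' ≠ V₂' := by
    intro h
    apply H553.vzeroNe P E M q w hS V₁' W' hO.vinf' hO.fricke'
    rw [← hO.vzero', ← h]
  -- rank one
  have harch₁ : ∀ a : FE E (M * q * q), ∃ k : ℕ, cE P E (M * q * q) w ^ k * a ∈ V₁ :=
    fun a => H972.arch_vinf hS.unif hO.vinf a
  have harch₃ : ∀ a : FE E (M * q * q), ∃ k : ℕ, cE P E (M * q * q) w ^ k * a ∈ V₃ := by
    intro a
    obtain ⟨k, hk⟩ := harch₁ (W a)
    refine ⟨k, ?_⟩
    rw [hV₃mem, map_mul, map_pow, fricke_cE]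
    exact hk
  have harch₂w : ∀ a : FE E (M * q * q), ∃ k : ℕ, cE P E (M * q * q) w ^ k * a ∈ V₂ := by
    intro a
    letI : Algebra (FE E (M * q)) (FE E (M * q * q)) :=
      AlgebraicCurve.algebraAlong (αE E (M * q) q)
    haveI : FiniteDimensional (FE E (M * q)) (FE E (M * q * q)) :=
      H972.finite_alpha (E := E) (M := M) (q := q) hS.q_prime
    have hint : IsIntegral (FE E (M * q)) a := Algebra.IsIntegral.isIntegral a
    obtain ⟨k, hk⟩ := A2.H48.exists_pow_mul_mem (O := V₁') (ϖ := cE P E (M * q) w) hu₁'.mem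
      (fun a => H972.arch_vinf hS.unif hO.vinf' a) V₂ (fun a ha => (hαV₂ a).mpr ha) hint
    refine ⟨k, ?_⟩
    have e : algebraMap (FE E (M * q)) (FE E (M * q * q)) (cE P E (M * q) w) =
        cE P E (M * q * q) w := (αE E (M * q) q).commutes (w : E)
    rw [e] at hk
    exact hk
  obtain ⟨hpu0, hpu, hpui⟩ := hVT.pi_pow
  have harch₂ : ∀ a : FE E (M * q * q), ∃ k : ℕ, (jqq E M q - j1 E M q) ^ k * a ∈ V₂ := by
    intro a
    obtain ⟨k, hk⟩ := harch₂w a
    refine ⟨(q - 1) * k, ?_⟩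
    have hπ0 : (jqq E M q - j1 E M q) ^ (q - 1) ≠ 0 := pow_ne_zero _ hu₂.ne_zero
    have e : (jqq E M q - j1 E M q) ^ ((q - 1) * k) * a =
        ((algebraMap (RE P E) (FE E (M * q * q)) w *
          ((jqq E M q - j1 E M q) ^ (q - 1))⁻¹)⁻¹) ^ k * (cE P E (M * q * q) w ^ k * a) := by
      have hc0 : cE P E (M * q * q) w ≠ 0 := cE_ne_zeroQ hSQ _
      have hce : algebraMap (RE P E) (FE E (M * q * q)) w = cE P E (M * q * q) w := rfl
      rw [hce, pow_mul, mul_inv, inv_inv, mul_pow, inv_pow]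
      field_simp
    rw [e]
    exact V₂.mul_mem _ _ (pow_mem hpui k) hk
  -- units
  have hj₁ : ∀ (d : ℕ) [NeZero d] (hd : d ∣ M * q * q), UnitAt V₁ (jE E (M * q * q) d hd) :=
    fun d _ hd => ⟨H873.jE_ne_zero E _ d hd, (hB₁.2.2 d hd).1, (hB₁.2.2 d hd).2⟩
  have hj₁' : ∀ (d : ℕ) [NeZero d] (hd : d ∣ M * q), jE E (M * q) d hd ≠ 0 ∧
      jE E (M * q) d hd ∈ V₁' ∧ (jE E (M * q) d hd)⁻¹ ∈ V₁' :=
    fun d _ hd => ⟨H873.jE_ne_zero E _ d hd, (hB₁'.2.2 d hd).1, (hB₁'.2.2 d hd).2⟩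
  have hj₃ : ∀ (d d' : ℕ) [NeZero d] [NeZero d'] (hd : d ∣ M * q * q) (hd' : d' ∣ M * q * q),
      d * d' = M * q * q → UnitAt V₃ (jE E (M * q * q) d hd) := by
    intro d d' _ _ hd hd' h
    refine ⟨H873.jE_ne_zero E _ d hd, ?_, ?_⟩
    · rw [hV₃mem, hO.fricke.1 d d' hd hd' h]
      exact (hB₁.2.2 d' hd').1
    · rw [hV₃mem, map_inv₀, hO.fricke.1 d d' hd hd' h]
      exact (hB₁.2.2 d' hd').2
  have hjq₂' : jE E (M * q) q hqM ∈ V₂' ∧ (jE E (M * q) q hqM)⁻¹ ∈ V₂' := by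
    constructor
    · rw [hV₂'mem, hO.fricke'.1 q M hqM (dvd_mul_right M q) (mul_comm q M)]
      exact (hB₁'.2.2 M (dvd_mul_right M q)).1
    · rw [hV₂'mem, map_inv₀, hO.fricke'.1 q M hqM (dvd_mul_right M q) (mul_comm q M)]
      exact (hB₁'.2.2 M (dvd_mul_right M q)).2
  have hαj : αE E (M * q) q (jE E (M * q) 1 (one_dvd _)) = j1 E M q :=
    H553.αE_jE E (M * q) q 1 (one_dvd _)
  have hαjq : αE E (M * q) q (jE E (M * q) q hqM) = jq E M q := alpha_jq_eq370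
  have hβjq : βE E (M * q) q (jE E (M * q) q hqM) = jqq E M q := beta_jq_eq370
  exact
    { dvr₁ := H972.isDiscreteValuationRing_of_isUnif hu₁ harch₁
      dvr₂ := H972.isDiscreteValuationRing_of_isUnif hu₂ harch₂
      dvr₃ := H972.isDiscreteValuationRing_of_isUnif hu₃ harch₃
      ne₁₂ := fun h => hO.mid_ne h.symm
      ne₁₃ := fun h => hne' (by rw [← hT.comap_α₁, h, hT.comap_α₃])
      ne₂₃ := fun h => hne' (by rw [← hT.comap_α₂, h, hT.comap_α₃])
      unif₁ := unifAt_of_isUnif370 hu₁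
      unif₃ := unifAt_of_isUnif370 hu₃
      ram₂ := ⟨_, hVT.pi_unif, hVT.pi_pow⟩
      x_unit₁ := unitAt_mul370 (unitAt_mul370 (hj₁ 1 _) (hj₁ q _)) (hj₁ (q * q) _)
      x_unit₂ := by
        refine unitAt_mul370 (unitAt_mul370 ?_ ?_) ?_
        · rw [← hαj]
          exact unitAt_of_map370 _ hαV₂ (hj₁' 1 _).1 (hj₁' 1 _).2.1 (hj₁' 1 _).2.2
        · rw [← hαjq]
          exact unitAt_of_map370 _ hαV₂ (hj₁' q _).1 (hj₁' q _).2.1 (hj₁' q _).2.2
        · rw [← hβjq]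
          exact unitAt_of_map370 _ hβV₂ (hj₁' q _).1 hjq₂'.1 hjq₂'.2
      x_unit₃ := unitAt_mul370
        (unitAt_mul370 (hj₃ 1 (M * q * q) (one_dvd _) dvd_rfl (one_mul _))
          (hj₃ q (M * q) (Dvd.intro_left (M * q) rfl) (Dvd.intro _ rfl) (by ring)))
        (hj₃ (q * q) M ⟨M, by ring⟩ ⟨q * q, by ring⟩ (by ring)) }

end Main

end Fermat.Agent.S36.Mod3.H370

end
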